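import Fermat.Agent.Khintchine.Main
import Mathlib.Analysis.PSeries
import Mathlib.Dynamics.Ergodic.AddCircleAdd

/-!
# Shrinking targets for a badly approximable rotation

In a dyadic block of multipliers the points `q a` are apart by a multiple of the inverse length, so
the union of the intervals around them has overlaps bounded by the product of the measures. The
limit superior is invariant under translation by `a`, so its positive measure becomes full.
-/

set_option autoImplicit false

noncomputable section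

open Finset MeasureTheory Metric Filter
open scoped Topology

namespace FA.Kurzweil

variable {a : UnitAddCircle} {c : ℝ} {ψ : ℕ → ℝ}

/-- The multiples of `a` stay `c / q` away from zero. -/
def IsBad (a : UnitAddCircle) (c : ℝ) : Prop := ∀ q : ℕ, 0 < q → c / q ≤ ‖q • a‖

theorem IsBad.separated (hc : 0 < c) (ha : IsBad a c) {N q r : ℕ} (hq : q ≤ N) (hr : r ≤ N)
    (h : q ≠ r) : c / N ≤ ‖q • a - r • a‖ := by
  wlog hqr : r < q generalizing q r
  · rw [norm_sub_rev]
    exact this hr hq h.symm (lt_of_le_of_ne (not_lt.1 hqr) h)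
  rw [sub_eq_add_neg, ← sub_nsmul a hqr.le]
  refine le_trans ?_ (ha _ (Nat.sub_pos_of_lt hqr))
  exact div_le_div_of_nonneg_left hc.le (Nat.cast_pos.2 (Nat.sub_pos_of_lt hqr))
    (Nat.cast_le.2 ((Nat.sub_le q r).trans hq))

theorem IsBad.le_half (ha : IsBad a c) : c ≤ 1 / 2 := by
  have h1 := ha 1 one_pos
  have h2 := AddCircle.norm_le_half_period (1 : ℝ) one_ne_zero (x := 1 • a)
  simp at h1 h2
  linarith

/-- The radius on a block. -/
def radius (ψ : ℕ → ℝ) (c : ℝ) (k : ℕ) : ℝ := min (ψ (2 ^ (k + 1))) (c / 2 ^ (k + 3))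

/-- The intervals of a block. -/
def target (a : UnitAddCircle) (ψ : ℕ → ℝ) (c : ℝ) (k : ℕ) : Set UnitAddCircle :=
  ⋃ q ∈ Ioc (2 ^ k) (2 ^ (k + 1)), ball (q • a) (radius ψ c k)

/-- Half the measure of a block. -/
def mass (ψ : ℕ → ℝ) (c : ℝ) (k : ℕ) : ℝ := 2 ^ k * radius ψ c k

theorem radius_nonneg (h0 : ∀ q, 0 ≤ ψ q) (hc : 0 < c) (k : ℕ) : 0 ≤ radius ψ c k :=
  le_min (h0 _) (by positivity)

theorem radius_le (k : ℕ) (hc : 0 < c) : radius ψ c k ≤ c / 8 := by
  refine (min_le_right _ _).trans (div_le_div_of_nonneg_left hc.le (by norm_num) ?_)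
  calc (8 : ℝ) = 2 ^ 3 := by norm_num
    _ ≤ _ := pow_le_pow_right₀ one_le_two (by omega)

theorem measurableSet_target (k : ℕ) : MeasurableSet (target a ψ c k) :=
  Finset.measurableSet_biUnion _ fun _ _ => isOpen_ball.measurableSet

theorem card_block (k : ℕ) : #(Ioc (2 ^ k) (2 ^ (k + 1))) = 2 ^ k := by
  rw [Nat.card_Ioc, pow_succ]
  omega

theorem measureReal_target (h0 : ∀ q, 0 ≤ ψ q) (hc : 0 < c) (ha : IsBad a c) (k : ℕ) :
    (volume : Measure UnitAddCircle).real (target a ψ c k) = 2 * mass ψ c k := by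
  have hr := radius_nonneg h0 hc k
  have hr8 := radius_le (ψ := ψ) k hc
  have hc2 := ha.le_half
  rw [target, measureReal_biUnion_finset ?_ fun _ _ => isOpen_ball.measurableSet]
  · rw [sum_congr rfl fun q _ => Khintchine.measureReal_ball (q • a) (radius ψ c k), sum_const,
      card_block, min_eq_right (by linarith), max_eq_right (by linarith), nsmul_eq_mul, mass]
    push_cast
    ring
  · intro q hq r hr' hqr
    simp only [mem_coe, mem_Ioc] at hq hr'
    refine ball_disjoint_ball ?_
    rw [dist_eq_norm]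
    refine le_trans ?_ (ha.separated hc hq.2 hr'.2 hqr)
    refine le_trans (add_le_add (min_le_right _ _) (min_le_right _ _)) ?_
    push_cast
    rw [← add_div, div_le_div_iff₀ (by positivity) (by positivity)]
    simp only [pow_succ]
    nlinarith [show (0 : ℝ) < c * 2 ^ k by positivity]

/-- The number of separated points in an interval. -/
theorem card_near_le (hc : 0 < c) (ha : IsBad a c) (x : UnitAddCircle) {ε : ℝ} (hε : 0 ≤ ε)
    (l : ℕ) :
    (#((Ioc (2 ^ l) (2 ^ (l + 1))).filter fun r => ‖r • a - x‖ < ε) : ℝ) ≤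
      ε * 2 ^ (l + 2) / c + 1 := by
  set P := (Ioc (2 ^ l) (2 ^ (l + 1))).filter fun r => ‖r • a - x‖ < ε with hP
  set s := c / 2 ^ (l + 2) with hs
  have hs0 : 0 < s := by positivity
  have hs4 : s ≤ c / 4 := by
    refine div_le_div_of_nonneg_left hc.le (by norm_num) ?_
    calc (4 : ℝ) = 2 ^ 2 := by norm_num
      _ ≤ _ := pow_le_pow_right₀ one_le_two (by omega)
  have hc2 := ha.le_half
  have hdisj : (P : Set ℕ).PairwiseDisjoint fun r => ball (r • a) s := fun q hq r hr hqr => by
    simp only [hP, mem_coe, mem_filter, mem_Ioc] at hq hr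
    refine ball_disjoint_ball ?_
    rw [dist_eq_norm]
    refine le_trans ?_ (ha.separated hc hq.1.2 hr.1.2 hqr)
    rw [hs, pow_succ _ (l + 1)]
    push_cast
    field_simp
    norm_num
  have hsub : (⋃ r ∈ P, ball (r • a) s) ⊆ ball x (ε + s) := by
    refine Set.iUnion₂_subset fun r hr => ball_subset_ball' ?_
    simp only [hP, mem_filter] at hr
    rw [dist_eq_norm]
    linarith [hr.2]
  have h := measureReal_mono (μ := (volume : Measure UnitAddCircle)) hsub (measure_ne_top _ _)
  rw [measureReal_biUnion_finset hdisj fun _ _ => isOpen_ball.measurableSet,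
    sum_congr rfl fun r _ => Khintchine.measureReal_ball (r • a) s, sum_const,
    Khintchine.measureReal_ball, nsmul_eq_mul, min_eq_right (by linarith),
    max_eq_right (by linarith)] at h
  have h' : (#P : ℝ) * (2 * s) ≤ 2 * (ε + s) :=
    h.trans (max_le (by linarith) (min_le_right _ _))
  calc (#P : ℝ) ≤ 2 * (ε + s) / (2 * s) := (le_div_iff₀ (by positivity)).2 h'
    _ = _ := by
      rw [hs]
      field_simp

theorem measureReal_target_inter_le (h0 : ∀ q, 0 ≤ ψ q) (hc : 0 < c) (ha : IsBad a c)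
    (k l : ℕ) :
    (volume : Measure UnitAddCircle).real (target a ψ c k ∩ target a ψ c l) ≤
      8 * (mass ψ c k * mass ψ c l) / c + 4 * ((2 : ℝ) ^ k * radius ψ c l) := by
  set rk := radius ψ c k with hrk
  set rl := radius ψ c l with hrl
  have hk0 : 0 ≤ rk := radius_nonneg h0 hc k
  have hl0 : 0 ≤ rl := radius_nonneg h0 hc l
  have hk8 : rk ≤ c / 8 := radius_le k hc
  have hl8 : rl ≤ c / 8 := radius_le l hc
  have hsub : target a ψ c k ∩ target a ψ c l ⊆ ⋃ q ∈ Ioc (2 ^ k) (2 ^ (k + 1)),
      ⋃ r ∈ (Ioc (2 ^ l) (2 ^ (l + 1))).filter fun r => ‖r • a - q • a‖ < rk + rl,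
        ball (r • a) rl := by
    rintro x ⟨hx, hy⟩
    simp only [target, Set.mem_iUnion, exists_prop, mem_ball, dist_eq_norm] at hx hy
    obtain ⟨q, hq, hqx⟩ := hx
    obtain ⟨r, hr, hrx⟩ := hy
    refine Set.mem_biUnion hq (Set.mem_biUnion (mem_filter.2 ⟨hr, ?_⟩) ?_)
    · calc ‖r • a - q • a‖ = ‖(x - q • a) - (x - r • a)‖ := by rw [sub_sub_sub_cancel_left]
        _ ≤ ‖x - q • a‖ + ‖x - r • a‖ := norm_sub_le _ _
        _ < _ := add_lt_add hqx hrx
    · rwa [mem_ball, dist_eq_norm]
  refine (measureReal_mono hsub (measure_ne_top _ _)).trans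
    ((measureReal_biUnion_finset_le _ _).trans ?_)
  refine (sum_le_sum (g := fun _ => (rk * 2 ^ (l + 2) / c + 2) * (2 * rl)) fun q _ => ?_).trans ?_
  · refine (measureReal_biUnion_finset_le _ _).trans
      ((sum_le_sum (g := fun _ => 2 * rl) fun r _ => ?_).trans ?_)
    · rw [Khintchine.measureReal_ball]
      exact max_le (by positivity) (min_le_right _ _)
    · rw [sum_const, nsmul_eq_mul]
      refine mul_le_mul_of_nonneg_right ((card_near_le hc ha _ (add_nonneg hk0 hl0)
        l).trans ?_) (by positivity)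
      have hlb : rl * 2 ^ (l + 2) / c ≤ 1 := by
        rw [div_le_one hc]
        calc rl * 2 ^ (l + 2) ≤ c / 2 ^ (l + 3) * 2 ^ (l + 2) :=
              mul_le_mul_of_nonneg_right (min_le_right _ _) (by positivity)
          _ = c / 2 := by
              rw [pow_succ _ (l + 2)]
              field_simp
          _ ≤ c := by linarith
      rw [add_mul, add_div]
      linarith
  · refine le_of_eq ?_
    rw [sum_const, card_block, nsmul_eq_mul, mass, mass, ← hrk, ← hrl, pow_add]
    push_cast
    ring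

theorem not_summable_mass (h0 : ∀ q, 0 ≤ ψ q) (hc : 0 < c)
    (hmono : ∀ q r, 1 ≤ q → q ≤ r → ψ r ≤ ψ q) (hdiv : ¬Summable ψ) :
    ¬Summable (mass ψ c) := by
  intro hs
  refine hdiv ((summable_condensed_iff_of_nonneg h0 fun m n hm hmn => hmono m n hm hmn).1 ?_)
  refine (summable_nat_add_iff 1).1 ?_
  refine Summable.of_norm_bounded_eventually (hs.mul_left 2) ?_
  rw [Nat.cofinite_eq_atTop]
  filter_upwards [hs.tendsto_atTop_zero.eventually_lt_const (show 0 < c / 8 by positivity)]
    with k hk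
  have hlt : radius ψ c k < c / 2 ^ (k + 3) := by
    rw [lt_div_iff₀ (by positivity), pow_add]
    have := mul_lt_mul_of_pos_right hk (show (0 : ℝ) < 8 by norm_num)
    rw [mass] at this
    linarith
  have he : radius ψ c k = ψ (2 ^ (k + 1)) := by
    simp only [radius] at hlt ⊢
    exact min_eq_left (le_of_not_ge fun h => by rw [min_eq_right h] at hlt; exact lt_irrefl _ hlt)
  rw [Real.norm_eq_abs, abs_of_nonneg (mul_nonneg (by positivity) (h0 _)), mass, he, pow_succ' _ k,
    mul_assoc]

/-- **Positive measure.** -/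
theorem limsup_target_pos (h0 : ∀ q, 0 ≤ ψ q) (hc : 0 < c) (ha : IsBad a c)
    (hmono : ∀ q r, 1 ≤ q → q ≤ r → ψ r ≤ ψ q) (hdiv : ¬Summable ψ) :
    0 < (volume : Measure UnitAddCircle) (limsup (target a ψ c) atTop) := by
  have hm0 : ∀ k, 0 ≤ mass ψ c k := fun k => mul_nonneg (by positivity) (radius_nonneg h0 hc k)
  have hdiv' := (not_summable_iff_tendsto_nat_atTop_of_nonneg hm0).1
    (not_summable_mass h0 hc hmono hdiv)
  have hκ : 0 < 4 / (8 / c + 10) := by positivity
  refine (ENNReal.ofReal_pos.2 hκ).trans_le (Khintchine.ofReal_le_measure_limsup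
    measurableSet_target fun n₀ => ?_)
  obtain ⟨N, hN, hn0⟩ := ((hdiv'.eventually_ge_atTop
    (∑ k ∈ range n₀, mass ψ c k + 1)).and (eventually_ge_atTop n₀)).exists
  rw [← sum_range_add_sum_Ico _ hn0] at hN
  refine ⟨Ico n₀ N, fun k hk => (mem_Ico.1 hk).1, ?_⟩
  set J := Ico n₀ N
  set W := ∑ k ∈ J, mass ψ c k with hW
  have hW1 : 1 ≤ W := by linarith
  have hterm : ∀ k l, (volume : Measure UnitAddCircle).real (target a ψ c k ∩ target a ψ c l) ≤
      8 * (mass ψ c k * mass ψ c l) / c + ((if k = l then 2 * mass ψ c k else 0) +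
        4 * ((if k < l then (2 : ℝ) ^ k * radius ψ c l else 0) +
          (if l < k then (2 : ℝ) ^ l * radius ψ c k else 0))) := fun k l => by
    have hn : 0 ≤ 8 * (mass ψ c k * mass ψ c l) / c :=
      div_nonneg (mul_nonneg (by norm_num) (mul_nonneg (hm0 k) (hm0 l))) hc.le
    rcases lt_trichotomy k l with h | h | h
    · rw [if_neg h.ne, if_pos h, if_neg h.not_gt]
      linarith [measureReal_target_inter_le h0 hc ha k l]
    · subst h
      rw [Set.inter_self, measureReal_target h0 hc ha, if_pos rfl, if_neg (lt_irrefl k)]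
      linarith
    · rw [if_neg h.ne', if_neg h.not_gt, if_pos h, Set.inter_comm]
      linarith [measureReal_target_inter_le h0 hc ha l k,
        congrArg (fun t => 8 * t / c) (mul_comm (mass ψ c l) (mass ψ c k))]
  have hgeo : ∀ l, ∑ k ∈ J, (if k < l then (2 : ℝ) ^ k else 0) ≤ 2 ^ l := fun l => by
    rw [← sum_filter]
    refine (sum_le_sum_of_subset_of_nonneg (t := range l)
      (fun k hk => mem_range.2 (mem_filter.1 hk).2) fun k _ _ => by positivity).trans ?_
    rw [geom_sum_eq (by norm_num)]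
    norm_num
  have hcross : ∑ k ∈ J, ∑ l ∈ J, (if k < l then (2 : ℝ) ^ k * radius ψ c l else 0) ≤ W := by
    rw [sum_comm]
    refine sum_le_sum fun l _ => ?_
    simp only [← ite_zero_mul, ← sum_mul]
    exact mul_le_mul_of_nonneg_right (hgeo l) (radius_nonneg h0 hc l)
  have hcross' : ∑ k ∈ J, ∑ l ∈ J, (if l < k then (2 : ℝ) ^ l * radius ψ c k else 0) ≤ W := by
    rw [sum_comm]
    exact hcross
  have hsecond : ∑ k ∈ J, ∑ l ∈ J, (volume : Measure UnitAddCircle).real
      (target a ψ c k ∩ target a ψ c l) ≤ (8 / c + 10) * W ^ 2 := by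
    refine (sum_le_sum fun k _ => sum_le_sum fun l _ => hterm k l).trans ?_
    have hdiag : ∑ k ∈ J, ∑ l ∈ J, (if k = l then 2 * mass ψ c k else 0) = 2 * W := by
      rw [hW, mul_sum]
      exact sum_congr rfl fun k hk => by rw [sum_ite_eq, if_pos hk]
    simp only [sum_add_distrib, ← mul_sum, ← sum_div]
    rw [hdiag, ← sum_mul, ← hW]
    have : W ≤ W ^ 2 := by nlinarith
    rw [show 8 * (W * W) / c = 8 / c * W ^ 2 by ring]
    nlinarith
  have hCE := Khintchine.sq_sum_measureReal_le (μ := (volume : Measure UnitAddCircle)) J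
    (fun k => measurableSet_target (a := a) (ψ := ψ) (c := c) k)
  rw [sum_congr rfl fun k _ => measureReal_target h0 hc ha k, ← mul_sum, ← hW] at hCE
  have h := hCE.trans (mul_le_mul_of_nonneg_left hsecond measureReal_nonneg)
  rw [div_le_iff₀ (by positivity)]
  refine le_of_mul_le_mul_right ?_ (show 0 < W ^ 2 by positivity)
  linarith

/-- **Kurzweil**, divergence. -/
theorem ae_infinite_of_isBad (h0 : ∀ q, 0 ≤ ψ q) (hc : 0 < c) (ha : IsBad a c)
    (hmono : ∀ q r, 1 ≤ q → q ≤ r → ψ r ≤ ψ q) (hdiv : ¬Summable ψ) :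
    ∀ᵐ x : UnitAddCircle, {q : ℕ | 0 < q ∧ ‖q • a - x‖ < ψ q}.Infinite := by
  set W : Set UnitAddCircle := {x | {q : ℕ | 0 < q ∧ ‖q • a - x‖ < ψ q}.Infinite} with hW
  have hWm : MeasurableSet W := by
    rw [hW]
    have e : ∀ x : UnitAddCircle, {q : ℕ | 0 < q ∧ ‖q • a - x‖ < ψ q} =
        {q | x ∈ (if 0 < q then ball (q • a) (ψ q) else ∅)} := fun x => by
      ext q
      by_cases hq : 0 < q <;> simp [hq, dist_eq_norm, norm_sub_rev]
    simp only [e]
    rw [← cofinite.limsup_set_eq, Nat.cofinite_eq_atTop]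
    refine MeasurableSet.measurableSet_limsup fun q => ?_
    split_ifs
    · exact isOpen_ball.measurableSet
    · exact MeasurableSet.empty
  have hord : addOrderOf a = 0 := addOrderOf_eq_zero_iff'.2 fun n hn hna => by
    have := ha n hn
    rw [hna, norm_zero] at this
    exact absurd this (not_le.2 (by positivity))
  have hinv : (fun x => a + x) ⁻¹' W ⊆ W := by
    intro x hx
    simp only [hW, Set.mem_preimage, Set.mem_ofPred_eq] at hx ⊢
    refine Set.Infinite.mono ?_ ((hx.sdiff (Set.finite_singleton 1)).image (f := fun q => q - 1) ?_)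
    · rintro _ ⟨q, ⟨⟨hq, hlt⟩, hq1⟩, rfl⟩
      have hq2 : 2 ≤ q := by simp only [Set.mem_singleton_iff] at hq1; omega
      refine ⟨by simp only; omega, ?_⟩
      refine lt_of_le_of_lt (le_of_eq ?_) (hlt.trans_le (hmono (q - 1) q (by omega) (by omega)))
      congr 1
      conv_rhs => rw [show q = (q - 1) + 1 by omega, succ_nsmul]
      abel
    · intro p hp r hr hpr
      have hp0 := hp.1.1
      have hr0 := hr.1.1
      simp only at hpr
      omega
  rcases (AddCircle.ergodic_add_left.2 hord).ae_empty_or_univ_of_preimage_ae_le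
    hWm.nullMeasurableSet hinv.eventuallyLE with h | h
  · exfalso
    refine (limsup_target_pos h0 hc ha hmono hdiv).ne'
      (measure_mono_null (fun x hx => ?_) (ae_eq_empty.1 h))
    rw [← Nat.cofinite_eq_atTop, cofinite.limsup_set_eq] at hx
    refine Set.infinite_of_forall_exists_gt fun n => ?_
    obtain ⟨k, hk, hnk⟩ := hx.exists_gt n
    simp only [Set.mem_ofPred_eq, target, Set.mem_iUnion, exists_prop, mem_ball, dist_eq_norm,
      mem_Ioc] at hk
    obtain ⟨q, hq, hlt⟩ := hk
    have hkq : k < q := (Nat.lt_two_pow_self).trans hq.1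
    refine ⟨q, ⟨by omega, ?_⟩, by omega⟩
    rw [norm_sub_rev]
    exact hlt.trans_le ((min_le_left _ _).trans (hmono _ _ (by omega) hq.2))
  · exact eventuallyEq_univ.1 h

end FA.Kurzweil
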