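import Fermat.Agent.Kurzweil.Divergence

/-!
# Kurzweil's theorem

If `a` is not badly approximable, choose `q n` with `‖q n a‖` tiny and thresholds `M (n + 1)` a
large multiple `T n` of `q n`: the multiples of `a` up to `M (n + 1)` gather at `q n` points, so
`ψ = 1 / M (n + 1)` on the block below `M (n + 1)` has divergent sum and null shrinking targets.
-/

set_option autoImplicit false

noncomputable section

open Finset MeasureTheory Metric Filter
open scoped Topology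

namespace FA.Kurzweil

/-- The thresholds. -/
def thresholds (f : ℕ → ℕ) : ℕ → ℕ
  | 0 => 1
  | n + 1 => 2 ^ (n + 1) * (thresholds f n + 1) * f (2 ^ (n + 1) * (thresholds f n + 1))

/-- **Kurzweil**, the converse. -/
theorem exists_ae_finite_of_not_isBad {a : UnitAddCircle}
    (ha : ∀ T : ℕ, 0 < T → ∃ q : ℕ, 0 < q ∧ ‖q • a‖ ≤ 1 / ((T : ℝ) ^ 2 * q)) :
    ∃ ψ : ℕ → ℝ, (∀ q, 0 ≤ ψ q) ∧ (∀ q r, 1 ≤ q → q ≤ r → ψ r ≤ ψ q) ∧ ¬Summable ψ ∧
      ∀ᵐ x : UnitAddCircle, {q : ℕ | 0 < q ∧ ‖q • a - x‖ < ψ q}.Finite := by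
  choose! f hf hfa using ha
  set M := thresholds f with hM
  set T : ℕ → ℕ := fun n => 2 ^ (n + 1) * (M n + 1) with hT
  have hT0 : ∀ n, 0 < T n := fun n => by simp only [hT]; positivity
  have hM0 : M 0 = 1 := rfl
  have hMs : ∀ n, M (n + 1) = T n * f (T n) := fun n => rfl
  have hgrow : ∀ n, 2 * M n < M (n + 1) := fun n => by
    have h1 : 1 ≤ f (T n) := hf _ (hT0 n)
    have h2 : 2 ≤ 2 ^ (n + 1) := Nat.le_self_pow (by omega) 2
    calc 2 * M n < 2 * (M n + 1) := by omega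
      _ ≤ T n := Nat.mul_le_mul_right _ h2
      _ ≤ _ := (Nat.le_mul_of_pos_right _ h1).trans (hMs n).ge
  have hmono : StrictMono M := strictMono_nat_of_lt_succ fun n => by linarith [hgrow n]
  have hex : ∀ q, ∃ n, q ≤ M n := fun q => ⟨q, hmono.le_apply⟩
  set lev : ℕ → ℕ := fun q => Nat.find (hex q) with hlev
  set ψ : ℕ → ℝ := fun q => 1 / (M (lev q) : ℝ) with hψ
  have hMpos : ∀ n, 0 < M n := fun n => Nat.lt_of_lt_of_le (hM0 ▸ one_pos)
    (hmono.monotone (Nat.zero_le n))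
  have hblock : ∀ n q, M n < q → q ≤ M (n + 1) → lev q = n + 1 := fun n q h1 h2 => by
    refine (Nat.find_eq_iff (hex q)).2 ⟨h2, fun m hm h => ?_⟩
    exact absurd (h.trans (hmono.monotone (Nat.lt_succ_iff.1 hm))) (not_le.2 h1)
  have hψ0 : ∀ q, 0 ≤ ψ q := fun q => by simp only [hψ]; positivity
  refine ⟨ψ, hψ0, fun q r _ hqr => ?_, fun hs => ?_, ?_⟩
  · exact one_div_le_one_div_of_le (Nat.cast_pos.2 (hMpos _))
      (Nat.cast_le.2 (hmono.monotone (Nat.find_mono fun n (h : r ≤ M n) => hqr.trans h)))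
  · have hlow : ∀ n : ℕ, (n : ℝ) / 2 ≤ ∑ q ∈ Ioc 0 (M n), ψ q := fun n => by
      induction n with
      | zero => simpa using sum_nonneg fun q _ => hψ0 q
      | succ n ih =>
        rw [← sum_Ioc_consecutive _ (Nat.zero_le (M n)) (hmono.monotone n.le_succ),
          sum_congr rfl (g := fun _ => 1 / (M (n + 1) : ℝ)) (s₁ := Ioc (M n) (M (n + 1)))
            fun q hq => by simp only [hψ, hblock n q (mem_Ioc.1 hq).1 (mem_Ioc.1 hq).2]]
        have hpos : (0 : ℝ) < M (n + 1) := Nat.cast_pos.2 (hMpos _)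
        have hg : 2 * (M n : ℝ) ≤ M (n + 1) := by exact_mod_cast (hgrow n).le
        have : (1 : ℝ) / 2 ≤ ∑ _q ∈ Ioc (M n) (M (n + 1)), 1 / (M (n + 1) : ℝ) := by
          rw [sum_const, Nat.card_Ioc, nsmul_eq_mul, Nat.cast_sub (hmono.monotone n.le_succ),
            mul_one_div, div_le_div_iff₀ two_pos hpos]
          linarith
        push_cast
        linarith
    obtain ⟨n, hn⟩ := exists_nat_gt (2 * ∑' q, ψ q)
    linarith [hlow n, hs.sum_le_tsum (Ioc 0 (M n)) fun q _ => hψ0 q]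
  · set C : ℕ → Set UnitAddCircle := fun n =>
      ⋃ j ∈ range (f (T n)), ball (j • a) (2 / (M (n + 1) : ℝ)) with hC
    have hμ : ∀ n, (volume : Measure UnitAddCircle) (C n) ≤
        ENNReal.ofReal (4 * (1 / 2) ^ n) := fun n => by
      rw [← ofReal_measureReal (measure_ne_top _ _)]
      refine ENNReal.ofReal_le_ofReal ((measureReal_biUnion_finset_le _ _).trans ?_)
      refine (sum_le_sum (g := fun _ => 4 / (M (n + 1) : ℝ)) fun j _ => ?_).trans ?_
      · rw [Khintchine.measureReal_ball]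
        exact max_le (by positivity) ((min_le_right _ _).trans (le_of_eq (by ring)))
      · have hf0 : (0 : ℝ) < f (T n) := Nat.cast_pos.2 (hf _ (hT0 n))
        rw [sum_const, card_range, nsmul_eq_mul, hMs, div_pow, one_pow, ← mul_div_assoc,
          ← mul_div_assoc, mul_one]
        push_cast
        have hTn : (2 : ℝ) ^ n ≤ T n := by
          exact_mod_cast (Nat.pow_le_pow_right two_pos n.le_succ).trans
            (Nat.le_mul_of_pos_right _ (Nat.succ_pos _))
        calc (f (T n) : ℝ) * 4 / ((T n : ℝ) * f (T n)) = 4 / (T n : ℝ) := by field_simp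
          _ ≤ _ := div_le_div_of_nonneg_left (by norm_num) (by positivity) hTn
    have hsum : ∑' n, (volume : Measure UnitAddCircle) (C n) ≠ ⊤ :=
      ne_top_of_le_ne_top (ENNReal.ofReal_tsum_of_nonneg
        (f := fun n => 4 * (1 / 2 : ℝ) ^ n) (fun n => by positivity)
        ((summable_geometric_of_lt_one (by norm_num) (by norm_num)).mul_left 4) ▸
          ENNReal.ofReal_ne_top) (ENNReal.tsum_le_tsum hμ)
    filter_upwards [ae_eventually_notMem hsum] with x hx
    obtain ⟨n₀, hn₀⟩ := eventually_atTop.1 hx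
    refine (range (M n₀ + 1)).finite_toSet.subset fun q ⟨hq, hlt⟩ => ?_
    rw [mem_coe, mem_range]
    by_contra hc
    have hl : n₀ < lev q := by
      by_contra hle
      have := (Nat.find_spec (hex q)).trans (hmono.monotone (not_lt.1 hle))
      omega
    obtain ⟨n, hn⟩ := Nat.exists_eq_succ_of_ne_zero (show lev q ≠ 0 by omega)
    refine hn₀ n (by omega) (Set.mem_biUnion (mem_range.2 (Nat.mod_lt q (hf _ (hT0 n)))) ?_)
    have hqM : q ≤ T n * f (T n) := by
      rw [← hMs]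
      exact (Nat.find_spec (hex q)).trans (le_of_eq (congrArg M hn))
    rw [hψ] at hlt
    simp only [hn] at hlt
    rw [mem_ball, dist_eq_norm]
    set g := f (T n) with hg
    have hi : q / g ≤ T n := Nat.div_le_of_le_mul (by rwa [mul_comm])
    have hshift : ‖q • a - (q % g) • a‖ ≤ 1 / (M (n + 1) : ℝ) := by
      have e : q • a = (q % g) • a + (q / g) • (g • a) := by
        rw [← mul_nsmul', ← add_nsmul]
        congr 1
        rw [mul_comm, Nat.mod_add_div]
      rw [e, add_sub_cancel_left]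
      refine norm_nsmul_le.trans ?_
      refine (mul_le_mul (Nat.cast_le.2 hi) (hfa _ (hT0 n)) (norm_nonneg _)
        (Nat.cast_nonneg _)).trans (le_of_eq ?_)
      rw [hMs]
      have : (0 : ℝ) < T n := Nat.cast_pos.2 (hT0 n)
      push_cast
      field_simp
    calc ‖x - (q % g) • a‖ = ‖(q • a - (q % g) • a) - (q • a - x)‖ := by
          rw [sub_sub_sub_cancel_left]
      _ ≤ ‖q • a - (q % g) • a‖ + ‖q • a - x‖ := norm_sub_le _ _
      _ < 1 / (M (n + 1) : ℝ) + 1 / (M (n + 1) : ℝ) := add_lt_add_of_le_of_lt hshift hlt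
      _ = _ := by ring

theorem exists_int_lt_iff (z ε : ℝ) :
    (∃ p : ℤ, |z - p| < ε) ↔ ‖(z : UnitAddCircle)‖ < ε := by
  have e : ‖(z : UnitAddCircle)‖ = |z - round z| := by
    rw [AddCircle.norm_eq]
    simp
  rw [e]
  exact ⟨fun ⟨p, hp⟩ => (round_le z p).trans_lt hp, fun h => ⟨_, h⟩⟩

theorem targets_eq (α γ : ℝ) (ψ : ℕ → ℝ) :
    {q : ℕ | 0 < q ∧ ∃ p : ℤ, |(q : ℝ) * α - p - γ| < ψ q} =
      {q : ℕ | 0 < q ∧ ‖q • (α : UnitAddCircle) - (γ : UnitAddCircle)‖ < ψ q} := by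
  ext q
  simp only [Set.mem_ofPred_eq]
  refine and_congr_right fun _ => ?_
  rw [← AddCircle.coe_nsmul, nsmul_eq_mul, ← AddCircle.coe_sub, ← exists_int_lt_iff]
  refine exists_congr fun p => ?_
  rw [sub_right_comm]

/-- **Kurzweil's theorem.** -/
theorem kurzweil_iff (α : ℝ) :
    (∃ c : ℝ, 0 < c ∧ ∀ q : ℕ, 0 < q → ∀ p : ℤ, c / q ≤ |(q : ℝ) * α - p|) ↔
      ∀ ψ : ℕ → ℝ, (∀ q, 0 ≤ ψ q) → (∀ q r, 1 ≤ q → q ≤ r → ψ r ≤ ψ q) → ¬Summable ψ →
        ∀ᵐ γ : ℝ, {q : ℕ | 0 < q ∧ ∃ p : ℤ, |(q : ℝ) * α - p - γ| < ψ q}.Infinite := by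
  refine ⟨fun ⟨c, hc, h⟩ ψ h0 hmono hdiv => ?_, fun h => ?_⟩
  · have ha : IsBad (α : UnitAddCircle) c := fun q hq => by
      rw [← AddCircle.coe_nsmul, nsmul_eq_mul]
      by_contra hlt
      obtain ⟨p, hp⟩ := (exists_int_lt_iff _ _).2 (not_le.1 hlt)
      exact absurd hp (not_lt.2 (h q hq p))
    filter_upwards [Khintchine.ae_real_of_ae_circle (ae_infinite_of_isBad h0 hc ha hmono hdiv)]
      with γ hγ
    rwa [targets_eq]
  · by_contra hno
    have ha : ∀ T : ℕ, 0 < T → ∃ q : ℕ, 0 < q ∧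
        ‖q • (α : UnitAddCircle)‖ ≤ 1 / ((T : ℝ) ^ 2 * q) := fun T hT => by
      by_contra hcon
      simp only [not_exists, not_and, not_le] at hcon
      refine hno ⟨1 / (T : ℝ) ^ 2, by positivity, fun q hq p => ?_⟩
      rw [div_div]
      refine (hcon q hq).le.trans ?_
      rw [← AddCircle.coe_nsmul, nsmul_eq_mul]
      exact not_lt.1 fun hlt => lt_irrefl _ ((exists_int_lt_iff _ _).1 ⟨p, hlt⟩)
    obtain ⟨ψ, h0, hmono, hdiv, hfin⟩ := exists_ae_finite_of_not_isBad ha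
    obtain ⟨γ, hinf, hγ⟩ := ((h ψ h0 hmono hdiv).and
      (Khintchine.ae_real_of_ae_circle hfin)).exists
    rw [targets_eq] at hinf
    exact hinf hγ

end FA.Kurzweil
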